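import Fermat.Agent.Root.SummaryThirteenOrders
import Fermat.Agent.Root.SummaryClassPolynomial
import Fermat.Agent.CMDivisibility.Arith

/-!
# Class number one and small totients

A discriminant with one reduced form is one of thirteen; `φ(n) ∣ 6` with odd-degree shape.
-/

set_option autoImplicit false
set_option linter.style.haveILetI false

noncomputable section

open FA.ModField (jfun)
open scoped MatrixGroups UpperHalfPlane

namespace FA.CMPrimeDegree

/-- **One reduced form means one of the thirteen discriminants.** -/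
theorem mem_thirteen_of_ncard {D : ℤ} (hD : D < 0) (h4 : D % 4 = 0 ∨ D % 4 = 1)
    (h : (FA.Singular.Red D).ncard = 1) :
    D ∈ ({-3, -4, -7, -8, -11, -12, -16, -19, -27, -28, -43, -67, -163} : Finset ℤ) := by
  obtain ⟨τ, A, B, C, hτ, hBC⟩ := FA.ThirteenOrders.exists_root hD h4
  obtain ⟨r, hr⟩ := (FA.Summary.singularModulus_rational_iff hτ.prim hτ.pos (hBC ▸ hD) hτ.eq).2
    (by rw [hBC]; exact h)
  exact hBC ▸ FA.ThirteenOrders.mem_thirteen_of_rat hτ (r := r) hr.symm

/-- A prime `≥ 11` congruent to `3` dividing one of the thirteen discriminants. -/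
theorem prime_cases {D : ℤ}
    (hD : D ∈ ({-3, -4, -7, -8, -11, -12, -16, -19, -27, -28, -43, -67, -163} : Finset ℤ))
    {p : ℕ} (hdvd : (p : ℤ) ∣ D) (h11 : 11 ≤ p) :
    (p = 11 ∧ D = -11) ∨ p = 14 ∨ p = 12 ∨ p = 16 ∨ p = 19 ∨ p = 27 ∨ p = 28 ∨ p = 43 ∨
      p = 67 ∨ p = 163 := by
  have h' : p ∣ D.natAbs := Int.natCast_dvd.mp hdvd
  simp only [Finset.mem_insert, Finset.mem_singleton] at hD
  rcases hD with rfl | rfl | rfl | rfl | rfl | rfl | rfl | rfl | rfl | rfl | rfl | rfl | rfl
  all_goals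
    simp only [Int.natAbs_neg, Int.reduceAbs] at h'
    have hle := Nat.le_of_dvd (by norm_num) h'
    interval_cases p <;> omega

/-- In degree three the orders outside `1, 2, 3, 4, 6`. -/
theorem eq_of_dvd_six {n : ℕ} (hn : 3 ≤ n) (h : n.totient ∣ 6) :
    n = 3 ∨ n = 4 ∨ n = 6 ∨ (n.totient = 6 ∧ (n = 7 ∨ n = 9 ∨ n = 14 ∨ n = 18)) := by
  rcases FA.CMDivisibility.eq_of_four_not_dvd (show n ≠ 0 by omega)
    (fun h4 => by have := h4.trans h; omega) with h1 | h1 | h1 | ⟨p, k, hp, hp4, hk, hn'⟩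
  · omega
  · omega
  · exact Or.inr (Or.inl h1)
  have htot : n.totient = p ^ (k - 1) * (p - 1) := by
    rcases hn' with rfl | rfl
    · rw [Nat.totient_prime_pow hp (by omega)]
    · rw [Nat.totient_mul (Nat.Coprime.pow_right _ ((Nat.coprime_primes Nat.prime_two hp).2
        (by omega))), Nat.totient_two, one_mul, Nat.totient_prime_pow hp (by omega)]
  rw [htot] at h
  have hp7 : p ≤ 7 := by
    have := Nat.le_of_dvd (by norm_num) (dvd_of_mul_left_dvd h)
    omega
  have hk2 : k ≤ 2 := by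
    by_contra hlt
    obtain ⟨j, hj⟩ : ∃ j, k - 1 = j + 2 := ⟨k - 3, by omega⟩
    rw [hj, pow_add] at h
    have h9 : 3 ^ 2 ≤ p ^ 2 := Nat.pow_le_pow_left (by omega) 2
    have := Nat.le_of_dvd (by norm_num)
      (dvd_of_mul_left_dvd (dvd_of_mul_right_dvd h : p ^ j * p ^ 2 ∣ 6))
    omega
  rcases (show p = 3 ∨ p = 7 by omega) with rfl | rfl <;>
    rcases (show k = 1 ∨ k = 2 by omega) with rfl | rfl <;>
    rcases hn' with rfl | rfl
  all_goals first
    | (exfalso; norm_num at h; done)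
    | (simp only [htot]; norm_num)

end FA.CMPrimeDegree

end
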